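import Fermat.Agent.Tsirelson.Norm

/-!
# Estimates for successive vectors

Successive vectors supported beyond their number behave like `ℓ¹` up to a half, while a vector
followed by the average of many later ones is distinctly shorter than two.
-/

set_option autoImplicit false

namespace FA.Tsirelson

theorem pair_sum {ι : Type*} (f : Vec) (s : Finset ι) (x : ι → Vec) :
    pair f (∑ j ∈ s, x j) = ∑ j ∈ s, pair f (x j) := by
  classical
  induction s using Finset.induction_on with
  | empty => simp [pair]
  | insert a s ha ih => rw [Finset.sum_insert ha, Finset.sum_insert ha, pair_add, ih]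

theorem pair_eq_zero {f x : Vec} (h : ∀ i, f i = 0 ∨ x i = 0) : pair f x = 0 := by
  rw [pair_eq_sum subset_rfl]
  exact Finset.sum_eq_zero fun i _ => by rcases h i with h | h <;> simp [h]

theorem disjoint_of_before {f g : Vec} (h : Before f g) (i : ℕ) : f i = 0 ∨ g i = 0 := by
  by_contra! hne
  exact (h i i hne.1 hne.2).false

/-- A functional within the support of the vector which nearly attains the norm. -/
theorem exists_norming_near (x : Vec) {ε : ℝ} (hε : 0 < ε) :
    ∃ g, IsNorming g ∧ (∀ i, x i = 0 → g i = 0) ∧ ‖embed x‖ - ε ≤ pair g x := by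
  classical
  obtain ⟨f, hf, hfx⟩ : ∃ f, IsNorming f ∧ ‖embed x‖ - ε ≤ |pair f x| := by
    by_contra! h
    have hpos : 0 ≤ ‖embed x‖ - ε :=
      ((abs_nonneg _).trans_lt (h _ (IsNorming.single 0 0 (by simp)))).le
    linarith [norm_embed_le (x := x) hpos fun f hf => (h f hf).le]
  let σ : ℝ := if 0 ≤ pair f x then 1 else -1
  obtain ⟨g, hg, hval⟩ := hf.scale (s := fun i => if x i = 0 then 0 else σ) fun i => by
    simp only [σ]
    split_ifs <;> simp
  refine ⟨g, hg, fun i hi => by simp [hval, hi], hfx.trans (le_of_eq ?_)⟩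
  have : pair g x = σ * pair f x := by
    rw [pair_eq_sum subset_rfl, pair_eq_sum subset_rfl, Finset.mul_sum]
    refine Finset.sum_congr rfl fun i hi => ?_
    rw [hval, if_neg (Finsupp.mem_support_iff.1 hi)]
    ring
  rw [this]
  simp only [σ]
  split_ifs with h
  · rw [abs_of_nonneg h, one_mul]
  · rw [abs_of_neg (not_le.1 h)]; ring

/-- **The lower estimate.** -/
theorem half_sum_norm_le {n : ℕ} (x : Fin n → Vec) (hlow : ∀ j i, x j i ≠ 0 → n ≤ i)
    (hord : ∀ j l, j < l → Before (x j) (x l)) :
    1 / 2 * ∑ j, ‖embed (x j)‖ ≤ ‖embed (∑ j, x j)‖ := by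
  refine le_of_forall_pos_le_add fun ε hε => ?_
  have hε' : 0 < ε / (n + 1) := by positivity
  choose g hg hsupp hval using fun j => exists_norming_near (x j) hε'
  have hne : ∀ j i, g j i ≠ 0 → x j i ≠ 0 := fun j i h h' => h (hsupp j i h')
  have hav : IsNorming ((1 / 2 : ℝ) • ∑ j, g j) :=
    .average n g hg (fun j i h => hlow j i (hne j i h))
      fun j l h i i' hi hi' => hord j l h i i' (hne j i hi) (hne l i' hi')
  have hdiag : ∀ j, pair (g j) (∑ l, x l) = pair (g j) (x j) := fun j => by
    rw [pair_sum]
    refine Finset.sum_eq_single_of_mem j (Finset.mem_univ _) fun l _ hl => pair_eq_zero fun i => ?_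
    rcases lt_or_gt_of_ne hl with h | h
    · exact (disjoint_of_before (hord _ _ h) i).symm.imp_left fun h' => hsupp j i h'
    · exact (disjoint_of_before (hord _ _ h) i).imp_left fun h' => hsupp j i h'
  have h := (le_abs_self _).trans (abs_pair_le_norm hav (∑ l, x l))
  rw [pair_smul_sum, Finset.sum_congr rfl fun j _ => hdiag j] at h
  have hsum : ∑ j, ‖embed (x j)‖ ≤ ∑ j, pair (g j) (x j) + n * (ε / (n + 1)) := by
    calc ∑ j, ‖embed (x j)‖ ≤ ∑ j, (pair (g j) (x j) + ε / (n + 1)) :=
          Finset.sum_le_sum fun j _ => by linarith [hval j]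
      _ = _ := by simp [Finset.sum_add_distrib]
  have hn : (n : ℝ) * (ε / (n + 1)) ≤ ε := by
    rw [mul_div_assoc', div_le_iff₀ (by positivity)]
    nlinarith
  linarith

/-- **A vector followed by an average.** -/
theorem norm_add_average_le {r M : ℕ} {z₀ : Vec} (hz₀ : ‖embed z₀‖ ≤ 1)
    (hM : ∀ i, z₀ i ≠ 0 → i < M) (hr : 4 * M ≤ r) (z : Fin r → Vec)
    (hz : ∀ j, ‖embed (z j)‖ ≤ 1) (hfirst : ∀ j, Before z₀ (z j))
    (hord : ∀ j l, j < l → Before (z j) (z l)) :
    ‖embed (z₀ + (1 / (r : ℝ)) • ∑ j, z j)‖ ≤ 7 / 4 := by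
  classical
  refine norm_embed_le (by norm_num) fun f hf => ?_
  rw [pair_add, pair_smul, pair_sum]
  have hr0 : (0 : ℝ) ≤ 1 / r := by positivity
  have hle : ∀ {g : Vec}, IsNorming g → ∀ j, |pair g (z j)| ≤ 1 := fun hg j =>
    (abs_pair_le_norm hg _).trans (hz j)
  have h0 : |pair f z₀| ≤ 1 := (abs_pair_le_norm hf _).trans hz₀
  -- it suffices to bound one of the two parts
  have hav : |1 / (r : ℝ) * ∑ j, pair f (z j)| ≤ 1 := by
    have h : |∑ j, pair f (z j)| ≤ r :=
      (Finset.abs_sum_le_sum_abs _ _).trans
        ((Finset.sum_le_sum fun j _ => hle hf j).trans (le_of_eq (by simp)))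
    rw [abs_mul, abs_of_nonneg hr0, div_mul_eq_mul_div, one_mul]
    exact div_le_one_of_le₀ h (by positivity)
  cases hf with
  | single i c hc =>
    have hb : ∀ j, pair (Finsupp.single i c) (z j) ≠ 0 → z j i ≠ 0 := fun j h h' =>
      h (pair_eq_zero fun x => by
        rw [Finsupp.single_apply]
        split_ifs with he
        · exact .inr (he ▸ h')
        · exact .inl rfl)
    by_cases h : ∃ j, z j i ≠ 0
    · obtain ⟨j, hj⟩ := h
      have : pair (Finsupp.single i c) z₀ = 0 := pair_eq_zero fun x => by
        rw [Finsupp.single_apply]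
        split_ifs with he
        · exact .inr (he ▸ (disjoint_of_before (hfirst j) i).resolve_right hj)
        · exact .inl rfl
      rw [this, zero_add]
      linarith
    · push Not at h
      rw [Finset.sum_eq_zero fun j _ => by_contra fun h' => hb j h' (h j), mul_zero, add_zero]
      linarith
  | average n g hg hlow hgord =>
    by_cases hnM : M ≤ n
    · have : pair ((1 / 2 : ℝ) • ∑ j, g j) z₀ = 0 := by
        rw [pair_smul_sum, Finset.sum_eq_zero fun j _ => pair_eq_zero fun i => ?_, mul_zero]
        by_contra! hne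
        have h1 := hlow j i hne.1
        have h2 := hM i hne.2
        omega
      rw [this, zero_add]
      linarith
    -- the blocks met by two of the functionals are few
    let meets : Fin n → Fin r → Prop := fun i j => ∃ x, g i x ≠ 0 ∧ z j x ≠ 0
    let split : Finset (Fin r) :=
      Finset.univ.filter fun j => ∃ i l, i < l ∧ meets i j ∧ meets l j
    have hcard : split.card ≤ n := by
      have hmem : ∀ j : split, ∃ i l, i < l ∧ meets i j ∧ meets l j := fun j =>
        (Finset.mem_filter.1 j.2).2
      choose first second hlt hm1 hm2 using hmem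
      have hinj : Function.Injective first := by
        have key : ∀ j j' : split, j.1 < j'.1 → first j ≠ first j' := fun j j' h he => by
          obtain ⟨x, hx, hx'⟩ := hm1 j'
          obtain ⟨y, hy, hy'⟩ := hm2 j
          have h1 := hord _ _ h y x hy' hx'
          have h2 := hgord _ _ (he ▸ hlt j) x y hx hy
          omega
        intro j j' he
        rcases lt_trichotomy j.1 j'.1 with h | h | h
        · exact absurd he (key j j' h)
        · exact Subtype.ext h
        · exact absurd he.symm (key j' j h)
      simpa using Fintype.card_le_of_injective first hinj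
    have hone : ∀ j, |pair ((1 / 2 : ℝ) • ∑ i, g i) (z j)| ≤
        1 / 2 + (if j ∈ split then 1 else 0) := fun j => by
      by_cases hj : j ∈ split
      · rw [if_pos hj]
        linarith [hle (.average n g hg hlow hgord) j]
      rw [if_neg hj, add_zero, pair_smul_sum, abs_mul, abs_of_pos (by norm_num : (0 : ℝ) < 1 / 2)]
      refine mul_le_of_le_one_right (by norm_num) ?_
      by_cases hex : ∃ i, meets i j
      · obtain ⟨i, hi⟩ := hex
        rw [Finset.sum_eq_single_of_mem i (Finset.mem_univ _) fun l _ hl => ?_]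
        · exact hle (hg i) j
        refine pair_eq_zero fun x => ?_
        by_contra! hne
        refine hj (Finset.mem_filter.2 ⟨Finset.mem_univ _, ?_⟩)
        rcases lt_or_gt_of_ne hl with h | h
        · exact ⟨l, i, h, ⟨x, hne.1, hne.2⟩, hi⟩
        · exact ⟨i, l, h, hi, ⟨x, hne.1, hne.2⟩⟩
      · rw [Finset.sum_eq_zero fun i _ => pair_eq_zero fun x => ?_]
        · simp
        by_contra! hne
        exact hex ⟨i, x, hne.1, hne.2⟩
    have hsum : |∑ j, pair ((1 / 2 : ℝ) • ∑ i, g i) (z j)| ≤ r / 2 + n := by
      refine (Finset.abs_sum_le_sum_abs _ _).trans ((Finset.sum_le_sum fun j _ => hone j).trans ?_)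
      rw [Finset.sum_add_distrib, Finset.sum_ite_mem, Finset.univ_inter]
      simp only [Finset.sum_const, Finset.card_univ, Fintype.card_fin, nsmul_eq_mul, mul_one]
      have : (split.card : ℝ) ≤ n := by exact_mod_cast hcard
      linarith
    have hnr : 4 * (n : ℝ) ≤ r := by exact_mod_cast le_trans (by omega) hr
    rcases Nat.eq_zero_or_pos r with rfl | hrpos
    · omega
    have hrpos' : (0 : ℝ) < r := by exact_mod_cast hrpos
    have h3 : 1 / (r : ℝ) * |∑ j, pair ((1 / 2 : ℝ) • ∑ i, g i) (z j)| ≤ 3 / 4 := by
      rw [div_mul_eq_mul_div, one_mul, div_le_iff₀ hrpos']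
      linarith
    refine (abs_add_le _ _).trans ?_
    rw [abs_mul, abs_of_nonneg hr0]
    linarith

/-- Successive vectors. -/
def IsBlock (z : ℕ → Vec) : Prop :=
  ∀ j l, j < l → Before (z j) (z l)

end FA.Tsirelson
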