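import Fermat.Agent.Tsirelson.Blocks
import Mathlib.Analysis.SpecialFunctions.Pow.Asymptotics
import Mathlib.Topology.Sequences

/-!
# No classical sequences

No sequence bounded below has sums growing more slowly than their length, and none behaves like
the unit vectors of `ℓ¹`: after a perturbation to successive vectors the first contradicts the
lower estimate, and the second, by James's distortion argument, the estimate for a vector followed
by an average.
-/

set_option autoImplicit false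

namespace FA.Tsirelson

open Filter Topology

/-- The initial projection is at most the sum of the coordinates. -/
theorem norm_truncate_le_sum (N : ℕ) (z : Space) :
    ‖incl (truncate N z)‖ ≤ ∑ i ∈ Finset.range N, |coord i z| := by
  rw [truncate, map_sum]
  refine (norm_sum_le _ _).trans (Finset.sum_le_sum fun i _ => ?_)
  rw [← mul_one (coord i z), ← smul_eq_mul, ← Finsupp.smul_single, map_smul, norm_smul, norm_incl,
    norm_embed_single, smul_eq_mul, mul_one, mul_one, Real.norm_eq_abs]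

/-- A point small on the first coordinates is near a vector supported later. -/
theorem exists_tail_near (z : Space) (N : ℕ) {ε : ℝ} (hε : 0 < ε)
    (hz : ∑ i ∈ Finset.range N, |coord i z| ≤ ε / 2) :
    ∃ N' x, N ≤ N' ∧ (∀ i, x i ≠ 0 → N ≤ i ∧ i < N') ∧ ‖z - incl x‖ ≤ ε := by
  obtain ⟨M, hM⟩ := Metric.tendsto_atTop.1 (tendsto_truncate z) (ε / 2) (half_pos hε)
  refine ⟨max M N, truncate (max M N) z - truncate N z, le_max_right _ _, fun i hi => ?_, ?_⟩
  · rw [Finsupp.sub_apply, truncate_apply, truncate_apply] at hi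
    split_ifs at hi with h1 h2 h2
    · exact absurd (sub_self _) hi
    · exact ⟨not_lt.1 h2, h1⟩
    · exact absurd (lt_of_lt_of_le h2 (le_max_right M N)) h1
    · exact absurd (sub_self _) hi
  · have h1 := (hM _ (le_max_left M N)).le
    rw [dist_comm, dist_eq_norm] at h1
    rw [map_sub, ← sub_add]
    linarith [norm_add_le (z - incl (truncate (max M N) z)) (incl (truncate N z)),
      norm_truncate_le_sum N z]

/-- **The sliding hump.** -/
theorem exists_blocks (u : ℕ → Space) (hu : ∀ i, Tendsto (fun k => coord i (u k)) atTop (𝓝 0))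
    {ε : ℝ} (hε : 0 < ε) (N₀ : ℕ) :
    ∃ (k : ℕ → ℕ) (x : ℕ → Vec), StrictMono k ∧ (∀ j i, x j i ≠ 0 → N₀ ≤ i) ∧ IsBlock x ∧
      ∀ j, ‖u (k j) - incl (x j)‖ ≤ ε := by
  have step : ∀ p : ℕ × ℕ, ∃ k N' x, p.2 ≤ k ∧ p.1 ≤ N' ∧
      (∀ i, x i ≠ 0 → p.1 ≤ i ∧ i < N') ∧ ‖u k - incl x‖ ≤ ε := fun ⟨N, K⟩ => by
    have h : Tendsto (fun k => ∑ i ∈ Finset.range N, |coord i (u k)|) atTop (𝓝 0) := by
      simpa using tendsto_finsetSum (Finset.range N) fun i _ => (hu i).abs
    obtain ⟨k, hk, hK⟩ :=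
      ((h.eventually (eventually_le_nhds (half_pos hε))).and (eventually_ge_atTop K)).exists
    obtain ⟨N', x, hN, hx, hd⟩ := exists_tail_near (u k) N hε hk
    exact ⟨k, N', x, hK, hN, hx, hd⟩
  choose k N' x hK hN hx hd using step
  let st : ℕ → ℕ × ℕ := fun j => Nat.recOn j (N₀, 0) fun _ p => (N' p, k p + 1)
  have hst : ∀ j, st (j + 1) = (N' (st j), k (st j) + 1) := fun _ => rfl
  have hmono : Monotone fun j => (st j).1 := monotone_nat_of_le_succ fun j => hN (st j)
  refine ⟨fun j => k (st j), fun j => x (st j), strictMono_nat_of_lt_succ fun j => ?_,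
    fun j i hi => (hmono (Nat.zero_le j)).trans (hx _ i hi).1, fun j l h a b ha hb => ?_,
    fun j => hd _⟩
  · have := hK (st (j + 1))
    rw [hst] at this ⊢
    exact this
  · have h1 : N' (st j) ≤ (st l).1 := hmono (Nat.succ_le_of_lt h)
    exact lt_of_lt_of_le (hx _ a ha).2 (h1.trans (hx _ b hb).1)

/-- **No sequence with sums of slow growth is bounded below.** -/
theorem not_slow_growth (u : ℕ → Space) {c C θ : ℝ} (hc : 0 < c) (hθ : θ < 1)
    (hlow : ∀ k, c ≤ ‖u k‖)
    (hup : ∀ (F : Finset ℕ) (s : ℕ → ℝ), (∀ k, |s k| ≤ 1) →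
      ‖∑ k ∈ F, s k • u k‖ ≤ C * (F.card : ℝ) ^ θ) : False := by
  have hsmall : ∀ δ : ℝ, 0 < δ → ∀ᶠ n : ℕ in atTop, C * (n : ℝ) ^ θ < δ * n := fun δ hδ => by
    have h : Tendsto (fun n : ℕ => C * (n : ℝ) ^ (θ - 1)) atTop (𝓝 0) := by
      simpa [neg_sub] using ((tendsto_rpow_neg_atTop (sub_pos.2 hθ)).comp
        tendsto_natCast_atTop_atTop).const_mul C
    filter_upwards [h.eventually (eventually_lt_nhds hδ), eventually_gt_atTop 0] with n hn hn0
    have hn' : (0 : ℝ) < n := by exact_mod_cast hn0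
    rwa [Real.rpow_sub_one hn'.ne', ← mul_div_assoc, div_lt_iff₀ hn'] at hn
  -- the coordinates tend to zero
  have hcoord : ∀ i, Tendsto (fun k => coord i (u k)) atTop (𝓝 0) := fun i => by
    refine Metric.tendsto_atTop.2 fun δ hδ => ?_
    by_contra hcon
    push Not at hcon
    have hinf : {k | δ ≤ |coord i (u k)|}.Infinite := Set.infinite_of_forall_exists_gt fun N => by
      obtain ⟨k, hk, hk'⟩ := hcon (N + 1)
      exact ⟨k, by simpa using hk', hk⟩
    obtain ⟨n, hn⟩ := (hsmall δ hδ).exists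
    obtain ⟨F, hF, hcard⟩ := hinf.exists_subset_card_eq n
    let s : ℕ → ℝ := fun k => if 0 ≤ coord i (u k) then 1 else -1
    have hs : ∀ k, |s k| ≤ 1 := fun k => by simp only [s]; split_ifs <;> simp
    have h := (le_abs_self _).trans ((abs_coord_le i _).trans (hup F s hs))
    rw [map_sum, hcard] at h
    have hge : δ * n ≤ ∑ k ∈ F, coord i (s k • u k) := by
      rw [← hcard, mul_comm, ← nsmul_eq_mul]
      refine Finset.card_nsmul_le_sum _ _ _ fun k hk => ?_
      rw [map_smul, smul_eq_mul]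
      have := hF hk
      simp only [Set.mem_ofPred_eq, s] at this ⊢
      split_ifs with h0
      · rwa [abs_of_nonneg h0, ← one_mul (coord i (u k))] at this
      · rwa [abs_of_neg (not_le.1 h0), neg_eq_neg_one_mul] at this
    linarith
  -- and so the sums grow linearly
  obtain ⟨n, hn⟩ := (hsmall (c / 8) (by positivity)).exists
  obtain ⟨k, x, hk, hlow', hblock, hd⟩ := exists_blocks u hcoord (ε := c / 8) (by positivity) n
  have h1 := half_sum_norm_le (fun j : Fin n => x j) (fun j => hlow' j) fun j l h => hblock _ _ h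
  have hx : ∀ j, 7 / 8 * c ≤ ‖embed (x j)‖ := fun j => by
    have h := norm_le_insert' (u (k j)) (incl (x j))
    rw [norm_incl] at h
    linarith [hlow (k j), hd j]
  have h2 : (n : ℝ) * (7 / 8 * c) ≤ ∑ j : Fin n, ‖embed (x j)‖ := by
    simpa using Finset.card_nsmul_le_sum (Finset.univ : Finset (Fin n)) _ _ fun j _ => hx j
  have h3 : ‖∑ j : Fin n, (u (k j) - incl (x j))‖ ≤ n * (c / 8) :=
    (norm_sum_le _ _).trans
      ((Finset.sum_le_sum fun (j : Fin n) _ => hd j).trans (le_of_eq (by simp)))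
  have h4 : ‖∑ j : Fin n, u (k j)‖ ≤ C * (n : ℝ) ^ θ := by
    have h := hup ((Finset.range n).image k) (fun _ => 1) fun _ => by simp
    rw [Finset.card_image_of_injective _ hk.injective, Finset.card_range,
      Finset.sum_image hk.injective.injOn] at h
    simpa [Finset.sum_range] using h
  rw [Finset.sum_sub_distrib, ← map_sum, norm_sub_rev] at h3
  have h5 := norm_le_insert' (incl (∑ j : Fin n, x j)) (∑ j : Fin n, u (k j))
  rw [norm_incl] at h5
  nlinarith [(Nat.cast_nonneg n : (0 : ℝ) ≤ n)]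

theorem before_sum {x : ℕ → Vec} (hx : IsBlock x) {F G : Finset ℕ} (h : ∀ l ∈ F, ∀ l' ∈ G, l < l')
    (a b : ℕ → ℝ) : Before (∑ l ∈ F, a l • x l) (∑ l ∈ G, b l • x l) := by
  intro i i' hi hi'
  rw [Finsupp.finsetSum_apply] at hi hi'
  obtain ⟨l, hl, hli⟩ := Finset.exists_ne_zero_of_sum_ne_zero hi
  obtain ⟨l', hl', hli'⟩ := Finset.exists_ne_zero_of_sum_ne_zero hi'
  exact hx l l' (h l hl l' hl') i i' (fun e => hli (by simp [e])) fun e => hli' (by simp [e])

/-- **James's distortion argument.** No successive vectors dominate `ℓ¹`. -/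
theorem not_l1_blocks (x : ℕ → Vec) (hx : IsBlock x) {c C : ℝ} (hc : 0 < c)
    (hC : ∀ j, ‖embed (x j)‖ ≤ C)
    (hlow : ∀ (F : Finset ℕ) (a : ℕ → ℝ),
      c * ∑ l ∈ F, |a l| ≤ ‖embed (∑ l ∈ F, a l • x l)‖) : False := by
  classical
  let S : ℕ → Set ℝ := fun m => {t | ∃ (F : Finset ℕ) (a : ℕ → ℝ), (∀ l ∈ F, m ≤ l) ∧
    ∑ l ∈ F, |a l| = 1 ∧ t = ‖embed (∑ l ∈ F, a l • x l)‖}
  have hmem : ∀ m, ‖embed (x m)‖ ∈ S m := fun m => ⟨{m}, fun _ => 1, by simp⟩
  have hbdd : ∀ m, BddBelow (S m) := fun m => ⟨c, by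
    rintro _ ⟨F, a, -, ha, rfl⟩
    simpa [ha] using hlow F a⟩
  have hcm : ∀ m, c ≤ sInf (S m) := fun m => le_csInf ⟨_, hmem m⟩ (by
    rintro _ ⟨F, a, -, ha, rfl⟩
    simpa [ha] using hlow F a)
  have hbdd' : BddAbove (Set.range fun m => sInf (S m)) := ⟨C, by
    rintro _ ⟨m, rfl⟩
    exact (csInf_le (hbdd m) (hmem m)).trans (hC m)⟩
  set α := ⨆ m, sInf (S m) with hα
  have hαc : c ≤ α := (hcm 0).trans (le_ciSup hbdd' 0)
  have hα0 : 0 < α := hc.trans_le hαc
  obtain ⟨m₀, hm₀⟩ := exists_lt_of_lt_ciSup (show α * (19 / 20) < ⨆ m, sInf (S m) by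
    rw [← hα]; linarith)
  have step : ∀ m, ∃ (F : Finset ℕ) (a : ℕ → ℝ), (∀ l ∈ F, m ≤ l) ∧ ∑ l ∈ F, |a l| = 1 ∧
      ‖embed (∑ l ∈ F, a l • x l)‖ < α * (21 / 20) := fun m => by
    obtain ⟨_, ⟨F, a, hF, ha, rfl⟩, ht⟩ := exists_lt_of_csInf_lt ⟨_, hmem m⟩
      (show sInf (S m) < α * (21 / 20) by linarith [le_ciSup hbdd' m])
    exact ⟨F, a, hF, ha, ht⟩
  choose F a hF ha hy using step
  let st : ℕ → ℕ := fun j => Nat.recOn j m₀ fun _ m => max m ((F m).sup id + 1)
  have hmono : Monotone st := monotone_nat_of_le_succ fun j => le_max_left _ _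
  have hlt : ∀ j j', j < j' → ∀ l ∈ F (st j), ∀ l' ∈ F (st j'), l < l' :=
    fun j j' h l hl l' hl' =>
      lt_of_lt_of_le (lt_of_lt_of_le (Nat.lt_succ_of_le (Finset.le_sup (f := id) hl))
        ((le_max_right _ _).trans (hmono (Nat.succ_le_of_lt h)))) (hF _ l' hl')
  let y : ℕ → Vec := fun j => ∑ l ∈ F (st j), a (st j) l • x l
  -- nonnegative combinations of these are long
  have hlong : ∀ (J : Finset ℕ) (b : ℕ → ℝ), (∀ j, 0 ≤ b j) →
      α * (19 / 20) * ∑ j ∈ J, b j ≤ ‖embed (∑ j ∈ J, b j • y j)‖ := fun J b hb => by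
    rcases (Finset.sum_nonneg fun j _ => hb j).eq_or_lt' with h0 | hpos
    · rw [h0, mul_zero]
      exact norm_nonneg _
    let A : ℕ → ℝ := fun l =>
      ∑ j ∈ J, if l ∈ F (st j) then b j / (∑ i ∈ J, b i) * a (st j) l else 0
    have hA : ∀ j ∈ J, ∀ l ∈ F (st j), A l = b j / (∑ i ∈ J, b i) * a (st j) l :=
      fun j hj l hl => by
        refine (Finset.sum_eq_single_of_mem j hj fun i _ hi => ?_).trans (if_pos hl)
        refine if_neg fun hl' => ?_
        rcases lt_or_gt_of_ne hi with h | h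
        · exact (hlt i j h l hl' l hl).false
        · exact (hlt j i h l hl l hl').false
    have hdisj : (J : Set ℕ).PairwiseDisjoint fun j => F (st j) := fun i _ j _ hij =>
      Finset.disjoint_left.2 fun l hl hl' => by
        rcases lt_or_gt_of_ne hij with h | h
        · exact (hlt i j h l hl l hl').false
        · exact (hlt j i h l hl' l hl).false
    have hone : ∑ l ∈ J.biUnion (fun j => F (st j)), |A l| = 1 := by
      rw [Finset.sum_biUnion hdisj]
      calc ∑ j ∈ J, ∑ l ∈ F (st j), |A l| = ∑ j ∈ J, b j / (∑ i ∈ J, b i) := by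
            refine Finset.sum_congr rfl fun j hj => ?_
            calc ∑ l ∈ F (st j), |A l|
                = ∑ l ∈ F (st j), b j / (∑ i ∈ J, b i) * |a (st j) l| :=
                  Finset.sum_congr rfl fun l hl => by
                    rw [hA j hj l hl, abs_mul, abs_of_nonneg (div_nonneg (hb j) hpos.le)]
              _ = _ := by rw [← Finset.mul_sum, ha, mul_one]
        _ = 1 := by rw [← Finset.sum_div, div_self hpos.ne']
    have hin : ‖embed (∑ l ∈ J.biUnion (fun j => F (st j)), A l • x l)‖ ∈ S m₀ := by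
      refine ⟨_, A, fun l hl => ?_, hone, rfl⟩
      obtain ⟨j, -, hl⟩ := Finset.mem_biUnion.1 hl
      exact (hmono (Nat.zero_le j)).trans (hF _ l hl)
    have heq : ∑ l ∈ J.biUnion (fun j => F (st j)), A l • x l =
        (∑ i ∈ J, b i)⁻¹ • ∑ j ∈ J, b j • y j := by
      rw [Finset.sum_biUnion hdisj, Finset.smul_sum]
      refine Finset.sum_congr rfl fun j hj => ?_
      simp only [y, Finset.smul_sum, smul_smul]
      exact Finset.sum_congr rfl fun l hl => by rw [hA j hj l hl]; ring_nf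
    have h := hm₀.le.trans (csInf_le (hbdd m₀) hin)
    rw [heq, map_smul, norm_smul, Real.norm_eq_abs, abs_of_pos (inv_pos.2 hpos),
      inv_mul_eq_div, le_div_iff₀ hpos] at h
    exact h
  -- the first vector followed by an average of many later ones
  let z : ℕ → Vec := fun j => (α * (21 / 20))⁻¹ • y j
  have hd : 0 < α * (21 / 20) := by positivity
  have hz : ∀ j, ‖embed (z j)‖ ≤ 1 := fun j => by
    rw [map_smul, norm_smul, Real.norm_eq_abs, abs_of_pos (inv_pos.2 hd), inv_mul_eq_div,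
      div_le_one hd]
    exact (hy _).le
  have hsupp : ∀ j i, z j i ≠ 0 → y j i ≠ 0 := fun j i h e => h (by simp [z, e])
  have hzord : ∀ j j', j < j' → Before (z j) (z j') := fun j j' h i i' hi hi' =>
    before_sum hx (hlt j j' h) _ _ i i' (hsupp j i hi) (hsupp j' i' hi')
  obtain ⟨M, hM⟩ : ∃ M, ∀ i, z 0 i ≠ 0 → i < M := ⟨(z 0).support.sup id + 1, fun i hi =>
    Nat.lt_succ_of_le (Finset.le_sup (f := id) (Finsupp.mem_support_iff.2 hi))⟩
  obtain ⟨z', hz'⟩ : ∃ z' : ℕ → Vec, z' = z := ⟨z, rfl⟩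
  rw [← hz'] at hz hzord hM
  have hupper := norm_add_average_le (r := 4 * M + 1) (hz 0) hM (Nat.le_succ _)
    (fun j : Fin (4 * M + 1) => z' ((j : ℕ) + 1)) (fun j => hz ((j : ℕ) + 1))
    (fun j => hzord 0 ((j : ℕ) + 1) (Nat.succ_pos _))
    fun j l h => hzord ((j : ℕ) + 1) ((l : ℕ) + 1) (Nat.succ_lt_succ h)
  subst hz'
  obtain ⟨r, hr, hupper⟩ : ∃ r : ℕ, 0 < r ∧
      ‖embed (z 0 + (1 / (r : ℝ)) • ∑ j : Fin r, z (j + 1))‖ ≤ 7 / 4 :=
    ⟨4 * M + 1, Nat.succ_pos _, hupper⟩
  have hr' : (r : ℝ) ≠ 0 := by positivity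
  let b : ℕ → ℝ := fun j => if j = 0 then 1 else 1 / r
  have hsum : ∑ j ∈ Finset.range (r + 1), b j = 2 := by
    rw [Finset.sum_range_succ']
    simp [b, hr']
    norm_num
  have hlower := hlong (Finset.range (r + 1)) b fun j => by simp only [b]; split_ifs <;> positivity
  have heq : z 0 + (1 / (r : ℝ)) • ∑ j : Fin r, z (j + 1) =
      (α * (21 / 20))⁻¹ • ∑ j ∈ Finset.range (r + 1), b j • y j := by
    rw [Finset.smul_sum, Fin.sum_univ_eq_sum_range (fun j => (1 / (r : ℝ)) • z (j + 1)) r,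
      Finset.sum_range_succ', smul_add, Finset.smul_sum, add_comm]
    refine congrArg₂ (· + ·) (Finset.sum_congr rfl fun j _ => ?_) ?_
    · simp only [b, z, Nat.succ_ne_zero, if_false]
      rw [smul_comm]
    · simp only [b, z, if_true, one_smul]
  rw [heq, map_smul, norm_smul, Real.norm_eq_abs, abs_of_pos (inv_pos.2 hd), inv_mul_eq_div,
    div_le_iff₀ hd] at hupper
  rw [hsum] at hlower
  linarith

/-- **No sequence behaves like the unit vectors of `ℓ¹`.** -/
theorem not_l1_sequence (u : ℕ → Space) {c C : ℝ} (hc : 0 < c) (hC : ∀ k, ‖u k‖ ≤ C)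
    (hlow : ∀ (F : Finset ℕ) (a : ℕ → ℝ), c * ∑ l ∈ F, |a l| ≤ ‖∑ l ∈ F, a l • u l‖) :
    False := by
  classical
  obtain ⟨g, -, φ, hφ, hlim⟩ := (isCompact_univ_pi fun _ : ℕ =>
    isCompact_Icc (a := -C) (b := C)).tendsto_subseq (x := fun k i => coord i (u k))
      fun k i _ => abs_le.1 ((abs_coord_le i _).trans (hC k))
  rw [tendsto_pi_nhds] at hlim
  let w : ℕ → Space := fun j => u (φ (2 * j + 1)) - u (φ (2 * j))
  have hw : ∀ i, Tendsto (fun j => coord i (w j)) atTop (𝓝 0) := fun i => by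
    have h2 : Tendsto (fun j : ℕ => 2 * j) atTop atTop :=
      tendsto_atTop_mono (fun j => by simp only [id_eq]; omega) tendsto_id
    have h := ((hlim i).comp (tendsto_atTop_mono (fun j => Nat.le_succ (2 * j)) h2)).sub
      ((hlim i).comp h2)
    simpa [w, Function.comp_def] using h
  obtain ⟨k, x, hk, -, hblock, hd⟩ := exists_blocks w hw hc 0
  refine not_l1_blocks x hblock (C := C + C + c) hc (fun j => ?_) fun F a => ?_
  · have h := norm_le_insert' (incl (x j)) (w (k j))
    rw [norm_incl, norm_sub_rev (incl (x j))] at h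
    linarith [hd j, norm_sub_le (u (φ (2 * k j + 1))) (u (φ (2 * k j))),
      hC (φ (2 * k j + 1)), hC (φ (2 * k j))]
  -- the differences
  let p : ℕ → ℕ := fun j => φ (2 * k j + 1)
  let q : ℕ → ℕ := fun j => φ (2 * k j)
  have hp : Function.Injective p := fun i j h => hk.injective (by
    have := hφ.injective h
    omega)
  have hq : Function.Injective q := fun i j h => hk.injective (by
    have := hφ.injective h
    omega)
  have hdisj : Disjoint (F.image p) (F.image q) := Finset.disjoint_left.2 fun l h h' => by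
    obtain ⟨i, -, rfl⟩ := Finset.mem_image.1 h
    obtain ⟨j, -, hj⟩ := Finset.mem_image.1 h'
    have := hφ.injective hj
    omega
  let A : ℕ → ℝ := fun l =>
    (∑ i ∈ F, if p i = l then a i else 0) - ∑ i ∈ F, if q i = l then a i else 0
  have hAp : ∀ j ∈ F, A (p j) = a j := fun j hj => by
    have h0 : (∑ i ∈ F, if q i = p j then a i else 0) = 0 :=
      Finset.sum_eq_zero fun i hi => if_neg fun h : q i = p j => Finset.disjoint_left.1 hdisj
        (Finset.mem_image_of_mem p hj) (h ▸ Finset.mem_image_of_mem q hi)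
    simp [A, h0, hp.eq_iff, hj]
  have hAq : ∀ j ∈ F, A (q j) = -a j := fun j hj => by
    have h0 : (∑ i ∈ F, if p i = q j then a i else 0) = 0 :=
      Finset.sum_eq_zero fun i hi => if_neg fun h : p i = q j => Finset.disjoint_left.1 hdisj
        (Finset.mem_image_of_mem p hi) (h.symm ▸ Finset.mem_image_of_mem q hj)
    simp [A, h0, hq.eq_iff, hj]
  have h := hlow (F.image p ∪ F.image q) A
  rw [Finset.sum_union hdisj, Finset.sum_union hdisj, Finset.sum_image hp.injOn,
    Finset.sum_image hq.injOn, Finset.sum_image hp.injOn, Finset.sum_image hq.injOn,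
    Finset.sum_congr rfl (fun j hj => congrArg abs (hAp j hj)),
    Finset.sum_congr rfl (fun j hj => congrArg abs (hAq j hj)),
    Finset.sum_congr rfl (fun j hj => congrArg (· • u (p j)) (hAp j hj)),
    Finset.sum_congr rfl (fun j hj => congrArg (· • u (q j)) (hAq j hj))] at h
  simp only [abs_neg, neg_smul, Finset.sum_neg_distrib, ← sub_eq_add_neg,
    ← Finset.sum_sub_distrib, ← smul_sub] at h
  have herr : ‖∑ j ∈ F, a j • (w (k j) - incl (x j))‖ ≤ c * ∑ j ∈ F, |a j| := by
    refine (norm_sum_le _ _).trans ?_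
    rw [Finset.mul_sum]
    refine Finset.sum_le_sum fun j _ => ?_
    rw [norm_smul, Real.norm_eq_abs, mul_comm c]
    exact mul_le_mul_of_nonneg_left (hd j) (abs_nonneg _)
  simp only [smul_sub, Finset.sum_sub_distrib, ← map_smul, ← map_sum] at herr
  have h5 := norm_le_insert' (∑ j ∈ F, a j • w (k j)) (incl (∑ j ∈ F, a j • x j))
  rw [norm_incl] at h5
  simp only [p, q, w] at h h5 herr
  linarith

end FA.Tsirelson
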