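import Mathlib.Analysis.Normed.Lp.lpSpace
import Mathlib.Analysis.Normed.Operator.Banach
import Mathlib.Data.Finsupp.Basic

/-!
# Tsirelson's space

The norming functionals of Figiel and Johnson are the least set containing the small multiples of
the coordinate functionals and the halves of sums of `n` successive members supported beyond `n`.
The space is the closure, among the bounded functions on this set, of the finitely supported
sequences.
-/

set_option autoImplicit false

namespace FA.Tsirelson

open scoped ENNReal

/-- Finitely supported sequences. -/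
abbrev Vec : Type := ℕ →₀ ℝ

/-- The supports of the first come before those of the second. -/
def Before (f g : Vec) : Prop :=
  ∀ x y, f x ≠ 0 → g y ≠ 0 → x < y

/-- The norming functionals. -/
inductive IsNorming : Vec → Prop
  | single (i : ℕ) (c : ℝ) (hc : |c| ≤ 1) : IsNorming (Finsupp.single i c)
  | average (n : ℕ) (g : Fin n → Vec) (hg : ∀ j, IsNorming (g j))
      (hlow : ∀ j x, g j x ≠ 0 → n ≤ x) (hord : ∀ j l, j < l → Before (g j) (g l)) :
      IsNorming ((1 / 2 : ℝ) • ∑ j, g j)

/-- The pairing. -/
noncomputable def pair (f x : Vec) : ℝ :=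
  x.sum fun i a => f i * a

theorem pair_add (f x y : Vec) : pair f (x + y) = pair f x + pair f y :=
  Finsupp.sum_add_index' (fun _ => mul_zero _) fun _ _ _ => mul_add _ _ _

theorem pair_smul (f : Vec) (a : ℝ) (x : Vec) : pair f (a • x) = a * pair f x := by
  rw [pair, Finsupp.sum_smul_index fun _ => mul_zero _, pair, Finsupp.sum, Finsupp.sum,
    Finset.mul_sum]
  exact Finset.sum_congr rfl fun i _ => by ring

theorem pair_eq_sum {f x : Vec} {F : Finset ℕ} (hF : x.support ⊆ F) :
    pair f x = ∑ i ∈ F, f i * x i :=
  Finsupp.sum_of_support_subset x hF _ fun _ _ => mul_zero _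

theorem pair_smul_sum {n : ℕ} (g : Fin n → Vec) (x : Vec) :
    pair ((1 / 2 : ℝ) • ∑ j, g j) x = 1 / 2 * ∑ j, pair (g j) x := by
  simp only [pair_eq_sum subset_rfl, Finsupp.smul_apply, Finsupp.finsetSum_apply, smul_eq_mul,
    Finset.mul_sum, Finset.sum_mul]
  rw [Finset.sum_comm]
  exact Finset.sum_congr rfl fun j _ => Finset.sum_congr rfl fun i _ => by ring

theorem sum_apply_of_before {n : ℕ} {g : Fin n → Vec} (hord : ∀ j l, j < l → Before (g j) (g l))
    {j : Fin n} {x : ℕ} (h : g j x ≠ 0) : (∑ l, g l) x = g j x := by
  rw [Finsupp.finsetSum_apply]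
  refine Finset.sum_eq_single_of_mem j (Finset.mem_univ _) fun l _ hl => ?_
  by_contra hne
  rcases lt_or_gt_of_ne hl with h' | h'
  · exact (hord _ _ h' x x hne h).false
  · exact (hord _ _ h' x x h hne).false

theorem IsNorming.abs_apply_le {f : Vec} (hf : IsNorming f) (x : ℕ) : |f x| ≤ 1 := by
  induction hf with
  | single i c hc =>
    rw [Finsupp.single_apply]
    split_ifs <;> simp [hc]
  | average n g _ _ hord ih =>
    rw [Finsupp.smul_apply, smul_eq_mul, abs_mul]
    by_cases h : ∃ j, g j x ≠ 0
    · obtain ⟨j, hj⟩ := h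
      rw [sum_apply_of_before hord hj]
      have := ih j
      norm_num
      linarith [abs_nonneg (g j x)]
    · push Not at h
      simp [Finsupp.finsetSum_apply, h]

/-- Multiplication by numbers of absolute value at most one keeps the functionals norming. -/
theorem IsNorming.scale {f : Vec} (hf : IsNorming f) {s : ℕ → ℝ} (hs : ∀ x, |s x| ≤ 1) :
    ∃ g, IsNorming g ∧ ∀ x, g x = s x * f x := by
  induction hf with
  | single i c hc =>
    refine ⟨Finsupp.single i (s i * c), .single i _ ?_, fun x => ?_⟩
    · rw [abs_mul]
      exact mul_le_one₀ (hs i) (abs_nonneg c) hc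
    · rw [Finsupp.single_apply, Finsupp.single_apply]
      split_ifs with h <;> simp [h]
  | average n g _ hlow hord ih =>
    choose g' hg' hval using ih
    have hne : ∀ j x, g' j x ≠ 0 → g j x ≠ 0 := fun j x h h' => h (by rw [hval, h', mul_zero])
    refine ⟨_, .average n g' hg' (fun j x h => hlow j x (hne j x h))
      (fun j l h x y hx hy => hord j l h x y (hne j x hx) (hne l y hy)), fun x => ?_⟩
    simp only [Finsupp.smul_apply, Finsupp.finsetSum_apply, smul_eq_mul, hval, Finset.mul_sum]
    exact Finset.sum_congr rfl fun j _ => by ring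

/-- The index set of the ambient space. -/
abbrev Func : Type := {f : Vec // IsNorming f}

/-- The bounded functions on the functionals. -/
abbrev Ambient : Type := lp (fun _ : Func => ℝ) ∞

theorem abs_pair_le {f : Vec} (hf : IsNorming f) (x : Vec) :
    |pair f x| ≤ ∑ i ∈ x.support, |x i| := by
  rw [pair_eq_sum subset_rfl]
  refine (Finset.abs_sum_le_sum_abs _ _).trans (Finset.sum_le_sum fun i _ => ?_)
  rw [abs_mul]
  exact mul_le_of_le_one_left (abs_nonneg _) (hf.abs_apply_le i)

/-- A finitely supported sequence as a function on the functionals. -/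
noncomputable def embed : Vec →ₗ[ℝ] Ambient where
  toFun x := ⟨fun f => pair f.1 x, memℓp_infty ⟨∑ i ∈ x.support, |x i|, by
    rintro _ ⟨f, rfl⟩
    exact abs_pair_le f.2 x⟩⟩
  map_add' x y := Subtype.ext (funext fun f => pair_add f.1 x y)
  map_smul' a x := Subtype.ext (funext fun f => pair_smul f.1 a x)

theorem embed_apply (x : Vec) (f : Func) : embed x f = pair f.1 x := rfl

theorem abs_pair_le_norm {f : Vec} (hf : IsNorming f) (x : Vec) : |pair f x| ≤ ‖embed x‖ :=
  lp.norm_apply_le_norm ENNReal.top_ne_zero (embed x) ⟨f, hf⟩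

theorem norm_embed_le {x : Vec} {r : ℝ} (hr : 0 ≤ r)
    (h : ∀ f, IsNorming f → |pair f x| ≤ r) : ‖embed x‖ ≤ r :=
  lp.norm_le_of_forall_le hr fun f => h f.1 f.2

theorem abs_apply_le_norm (x : Vec) (i : ℕ) : |x i| ≤ ‖embed x‖ := by
  classical
  refine le_trans (le_of_eq ?_) (abs_pair_le_norm (.single i 1 (by simp)) x)
  rw [pair_eq_sum (Finset.subset_insert i x.support),
    Finset.sum_eq_single_of_mem i (Finset.mem_insert_self _ _)
      fun j _ hj => by simp [Finsupp.single_eq_of_ne hj]]
  simp

theorem norm_embed_single (i : ℕ) : ‖embed (Finsupp.single i 1)‖ = 1 := by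
  refine le_antisymm (norm_embed_le zero_le_one fun f hf => ?_) ?_
  · simpa [Finsupp.support_single] using abs_pair_le hf (Finsupp.single i (1 : ℝ))
  · simpa using abs_apply_le_norm (Finsupp.single i 1) i

/-- **One-unconditionality.** -/
theorem norm_embed_le_of_scale {x y : Vec} {s : ℕ → ℝ} (hs : ∀ i, |s i| ≤ 1)
    (h : ∀ i, y i = s i * x i) : ‖embed y‖ ≤ ‖embed x‖ := by
  refine norm_embed_le (norm_nonneg _) fun f hf => ?_
  obtain ⟨g, hg, hval⟩ := hf.scale hs
  refine le_trans (le_of_eq ?_) (abs_pair_le_norm hg x)
  rw [pair_eq_sum (f := g) subset_rfl, pair_eq_sum (f := f) (F := x.support) fun i hi => by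
    rw [Finsupp.mem_support_iff] at hi ⊢
    exact fun h' => hi (by rw [h, h', mul_zero])]
  exact congrArg abs (Finset.sum_congr rfl fun i _ => by rw [hval, h]; ring)

/-- The space, as a closed subspace. -/
noncomputable def subspace : Submodule ℝ Ambient :=
  (LinearMap.range embed).topologicalClosure

/-- **Tsirelson's space.** -/
abbrev Space : Type := ↥subspace

instance : CompleteSpace Space :=
  (LinearMap.range embed).isClosed_topologicalClosure.isComplete.completeSpace_coe

/-- The finitely supported sequences in the space. -/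
noncomputable def incl : Vec →ₗ[ℝ] Space :=
  embed.codRestrict _ fun x => Submodule.le_topologicalClosure _ (LinearMap.mem_range_self _ x)

theorem norm_incl (x : Vec) : ‖incl x‖ = ‖embed x‖ := rfl

theorem exists_near (z : Space) {ε : ℝ} (hε : 0 < ε) : ∃ x : Vec, ‖z - incl x‖ < ε := by
  obtain ⟨_, ⟨x, rfl⟩, h⟩ :=
    Metric.mem_closure_iff.1 (show (z : Ambient) ∈ closure (Set.range embed) from
      (Submodule.topologicalClosure_coe (LinearMap.range embed)).subset z.2) ε hε
  exact ⟨x, by rwa [dist_eq_norm] at h⟩

/-- The coordinates. -/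
noncomputable def coord (i : ℕ) : Space →L[ℝ] ℝ :=
  LinearMap.mkContinuous
    { toFun := fun z => (z : Ambient) ⟨Finsupp.single i 1, .single i 1 (by simp)⟩
      map_add' := fun _ _ => rfl
      map_smul' := fun _ _ => rfl } 1 fun z => by
    rw [one_mul]
    exact lp.norm_apply_le_norm ENNReal.top_ne_zero (z : Ambient) _

theorem coord_incl (i : ℕ) (x : Vec) : coord i (incl x) = x i := by
  classical
  show pair (Finsupp.single i 1) x = x i
  rw [pair_eq_sum (Finset.subset_insert i x.support),
    Finset.sum_eq_single_of_mem i (Finset.mem_insert_self _ _)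
      fun j _ hj => by simp [Finsupp.single_eq_of_ne hj]]
  simp

theorem abs_coord_le (i : ℕ) (z : Space) : |coord i z| ≤ ‖z‖ :=
  lp.norm_apply_le_norm ENNReal.top_ne_zero (z : Ambient) _

/-- The first coordinates of a point, as a sequence. -/
noncomputable def truncate (N : ℕ) (z : Space) : Vec :=
  ∑ i ∈ Finset.range N, Finsupp.single i (coord i z)

theorem truncate_apply (N : ℕ) (z : Space) (i : ℕ) :
    truncate N z i = if i < N then coord i z else 0 := by
  simp only [truncate, Finsupp.finsetSum_apply, Finsupp.single_apply, Finset.sum_ite_eq',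
    Finset.mem_range]

theorem truncate_sub (N : ℕ) (z w : Space) :
    truncate N (z - w) = truncate N z - truncate N w := by
  ext i
  simp only [Finsupp.sub_apply, truncate_apply, map_sub]
  split_ifs <;> simp

theorem continuous_truncate (N : ℕ) : Continuous fun z => incl (truncate N z) := by
  simp only [truncate, map_sum]
  refine continuous_finsetSum _ fun i _ => ?_
  have : (fun z : Space => incl (Finsupp.single i (coord i z))) =
      fun z => coord i z • incl (Finsupp.single i 1) := funext fun z => by
    rw [← map_smul, Finsupp.smul_single, smul_eq_mul, mul_one]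
  rw [this]
  exact (coord i).continuous.smul continuous_const

/-- The projections have norm at most one. -/
theorem norm_truncate_le (N : ℕ) (z : Space) : ‖incl (truncate N z)‖ ≤ ‖z‖ := by
  have hcl : IsClosed {z : Space | ‖incl (truncate N z)‖ ≤ ‖z‖} :=
    isClosed_le (continuous_truncate N).norm continuous_norm
  refine hcl.closure_subset (Metric.mem_closure_iff.2 fun ε hε => ?_)
  obtain ⟨x, hx⟩ := exists_near z hε
  refine ⟨incl x, ?_, by rwa [dist_eq_norm]⟩
  refine (norm_embed_le_of_scale (x := x) (s := fun i => if i < N then 1 else 0)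
    (fun i => by split_ifs <;> simp) fun i => ?_)
  rw [truncate_apply, coord_incl]
  split_ifs <;> simp

/-- The partial sums converge. -/
theorem tendsto_truncate (z : Space) :
    Filter.Tendsto (fun N => incl (truncate N z)) Filter.atTop (nhds z) := by
  refine Metric.tendsto_atTop.2 fun ε hε => ?_
  obtain ⟨x, hx⟩ := exists_near z (half_pos hε)
  refine ⟨x.support.sup id + 1, fun N hN => ?_⟩
  have hfix : truncate N (incl x) = x := by
    ext i
    rw [truncate_apply, coord_incl]
    split_ifs with hi
    · rfl
    · refine (Finsupp.notMem_support_iff.1 fun h => hi ?_).symm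
      have := Finset.le_sup (f := id) h
      simp only [id_eq] at this
      omega
  rw [dist_eq_norm]
  have h1 : ‖incl (truncate N z) - incl x‖ ≤ ‖z - incl x‖ := by
    have := norm_truncate_le N (z - incl x)
    rwa [truncate_sub, hfix, map_sub] at this
  calc ‖incl (truncate N z) - z‖ = ‖(incl (truncate N z) - incl x) - (z - incl x)‖ := by
        rw [sub_sub_sub_cancel_right]
    _ ≤ ‖incl (truncate N z) - incl x‖ + ‖z - incl x‖ := norm_sub_le _ _
    _ < ε := by linarith

end FA.Tsirelson
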